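import Fermat.Agent.S14.Thaine.Defs

/-!
# Route T, block `Kummer` (sub-architect helper8): the Kummer generator

`L/K` cyclic of prime degree `p`, `ζ_p ∈ K`: `L = K(B)` with `B ^ p ∈ K`; we may take `B`
integral.  Elementary consequences.  STATEMENTS FROZEN (owner of the bodies: one worker).
-/

set_option autoImplicit false

namespace Fermat.Agent.S14.Thaine.Kummer

open NumberField

/-- An integral Kummer generator: `B ∈ 𝓞 L`, `B ^ p = b ∈ 𝓞 K`, `B ∉ K`. -/
theorem exists_generator {p : ℕ} [Fact p.Prime] (K L : Type) [Field K] [NumberField K] [Field L]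
    [NumberField L] [Algebra K L] [IsCyclotomicExtension {p} ℚ K] [IsGalois K L]
    (hdeg : Module.finrank K L = p) :
    ∃ (B : 𝓞 L) (b : 𝓞 K), algebraMap (𝓞 K) (𝓞 L) b = B ^ p ∧
      (B : L) ∉ Set.range (algebraMap K L) := by
  have hp : p.Prime := Fact.out
  have : NeZero p := ⟨hp.ne_zero⟩
  have hcard : Nat.card (L ≃ₐ[K] L) = p := by rw [IsGalois.card_aut_eq_finrank, hdeg]
  have : IsCyclic (L ≃ₐ[K] L) := isCyclic_of_prime_card hcard
  have hζ := IsCyclotomicExtension.zeta_spec p ℚ K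
  have hne : (primitiveRoots (Module.finrank K L) K).Nonempty := by
    rw [hdeg]
    exact ⟨_, (mem_primitiveRoots hp.pos).mpr hζ⟩
  obtain ⟨α, ⟨a, ha⟩, hα⟩ := exists_root_adjoin_eq_top_of_isCyclic K L hne
  rw [hdeg] at ha
  have hαK : α ∉ Set.range (algebraMap K L) := by
    intro hmem
    have h1 : IntermediateField.adjoin K {α} = ⊥ :=
      IntermediateField.adjoin_simple_eq_bot_iff.mpr (IntermediateField.mem_bot.mpr hmem)
    rw [h1] at hα
    have h2 := IntermediateField.bot_eq_top_iff_finrank_eq_one.mp hα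
    rw [hdeg] at h2
    exact hp.one_lt.ne' h2
  -- integrality
  have halgQ : IsAlgebraic ℚ α := (NumberField.isAlgebraic L).isAlgebraic α
  have halg : IsAlgebraic ℤ α := (IsFractionRing.isAlgebraic_iff ℤ ℚ L).mpr halgQ
  obtain ⟨m, hm, hint⟩ := halg.exists_integral_multiple
  have hmL : ((m : ℤ) : L) ≠ 0 := by exact_mod_cast hm
  have hmα : m • α = (m : L) * α := zsmul_eq_mul α m
  have hb₀ : algebraMap K L ((m : K) ^ p * a) = (m • α) ^ p := by
    rw [map_mul, map_pow, ha, hmα, mul_pow, map_intCast]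
  have hb₀int : IsIntegral ℤ ((m : K) ^ p * a) := by
    rw [← isIntegral_algebraMap_iff (algebraMap K L).injective, hb₀]
    exact hint.pow p
  obtain ⟨B, hB⟩ : ∃ B : 𝓞 L, (B : L) = m • α := ⟨⟨m • α, hint⟩, rfl⟩
  obtain ⟨b, hb⟩ : ∃ b : 𝓞 K, (b : K) = (m : K) ^ p * a := ⟨⟨_, hb₀int⟩, rfl⟩
  refine ⟨B, b, ?_, ?_⟩
  · apply RingOfIntegers.ext
    have h1 : ((algebraMap (𝓞 K) (𝓞 L) b : 𝓞 L) : L) = algebraMap K L (b : K) := by
      rw [RingOfIntegers.coe_eq_algebraMap, RingOfIntegers.coe_eq_algebraMap,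
        ← IsScalarTower.algebraMap_apply, ← IsScalarTower.algebraMap_apply]
    rw [h1, hb, hb₀, ← hB]
    exact (map_pow (algebraMap (𝓞 L) L) B p).symm
  · rintro ⟨c, hc⟩
    apply hαK
    refine ⟨(m : K)⁻¹ * c, ?_⟩
    rw [map_mul, hc, hB, hmα, map_inv₀, map_intCast, inv_mul_cancel_left₀ hmL]

/-- Every `K`-automorphism multiplies a Kummer generator by a `p`-th root of unity of `K`. -/
theorem exists_pow_smul {p : ℕ} [Fact p.Prime] {K L : Type} [Field K] [Field L] [Algebra K L]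
    (ζ : K) (hζ : IsPrimitiveRoot ζ p) (B : L) (hB0 : B ≠ 0) (b : K)
    (hb : algebraMap K L b = B ^ p) (τ : L ≃ₐ[K] L) :
    ∃ j : ℕ, τ B = algebraMap K L ζ ^ j * B := by
  have : NeZero p := ⟨(Fact.out : p.Prime).ne_zero⟩
  have hζL : IsPrimitiveRoot (algebraMap K L ζ) p :=
    hζ.map_of_injective (algebraMap K L).injective
  have h1 : (τ B) ^ p = B ^ p := by
    rw [← map_pow, ← hb, AlgEquiv.commutes]
  have h2 : (τ B / B) ^ p = 1 := by
    rw [div_pow, h1, div_self (pow_ne_zero p hB0)]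
  obtain ⟨j, -, hj⟩ := hζL.eq_pow_of_pow_eq_one h2
  exact ⟨j, by rw [hj, div_mul_cancel₀ _ hB0]⟩

/-- `b = B ^ p` with `B ∉ K` is nonzero and not a `p`-th power in `K`. -/
theorem not_pow {p : ℕ} [Fact p.Prime] {K L : Type} [Field K] [Field L] [Algebra K L]
    (ζ : K) (hζ : IsPrimitiveRoot ζ p) (B : L) (b : K) (hb : algebraMap K L b = B ^ p)
    (hB : B ∉ Set.range (algebraMap K L)) :
    b ≠ 0 ∧ ¬ ∃ γ : K, b = γ ^ p := by
  have hp : p.Prime := Fact.out
  have : NeZero p := ⟨hp.ne_zero⟩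
  have hb0 : b ≠ 0 := by
    rintro rfl
    rw [map_zero] at hb
    have h0 : B = 0 := (pow_eq_zero_iff hp.ne_zero).mp hb.symm
    exact hB ⟨0, by rw [h0, map_zero]⟩
  refine ⟨hb0, ?_⟩
  rintro ⟨γ, rfl⟩
  have hγ : γ ≠ 0 := by
    rintro rfl
    exact hb0 (zero_pow hp.ne_zero)
  have hγL : algebraMap K L γ ≠ 0 := (map_ne_zero (algebraMap K L)).mpr hγ
  have h2 : (B / algebraMap K L γ) ^ p = 1 := by
    rw [div_pow, ← hb, map_pow, div_self (pow_ne_zero p hγL)]
  have hζL : IsPrimitiveRoot (algebraMap K L ζ) p :=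
    hζ.map_of_injective (algebraMap K L).injective
  obtain ⟨j, -, hj⟩ := hζL.eq_pow_of_pow_eq_one h2
  apply hB
  refine ⟨ζ ^ j * γ, ?_⟩
  rw [map_mul, map_pow, hj, div_mul_cancel₀ _ hγL]

end Fermat.Agent.S14.Thaine.Kummer
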