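import Fermat.Agent.S14.Thaine.Defs

/-!
# Route T, block `Kummer` (sub-architect helper8): approximation at a totally split prime

If the decomposition group of `w` in `L/K` (Galois) is trivial, every integer of `L` is congruent
modulo any power of `w` to an integer of `K` (take the trace of `B θ`, `θ` a CRT idempotent).
STATEMENT FROZEN (owner of the body: one worker).
-/

set_option autoImplicit false

namespace Fermat.Agent.S14.Thaine.Kummer

open NumberField IsDedekindDomain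
open scoped Pointwise

theorem exists_approx {K L : Type} [Field K] [NumberField K] [Field L] [NumberField L]
    [Algebra K L] [IsGalois K L] (w : HeightOneSpectrum (𝓞 L))
    (hstab : MulAction.stabilizer (L ≃ₐ[K] L) w.asIdeal = ⊥) (B : 𝓞 L) (N : ℕ) :
    ∃ c : 𝓞 K, algebraMap (𝓞 K) (𝓞 L) c - B ∈ w.asIdeal ^ N := by
  classical
  let _ : Fintype (L ≃ₐ[K] L) := Fintype.ofFinite _
  have := w.isPrime
  have hprime : ∀ τ ∈ (Finset.univ : Finset (L ≃ₐ[K] L)), Prime (τ • w.asIdeal) := by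
    intro τ _
    refine Ideal.prime_of_isPrime ?_ (Ideal.IsPrime.smul τ)
    intro hbot
    apply w.ne_bot
    have h2 : τ • w.asIdeal = τ • (⊥ : Ideal (𝓞 L)) := by rw [hbot, Ideal.smul_bot]
    exact MulAction.injective τ h2
  have hcop : ∀ᵉ (i ∈ (Finset.univ : Finset (L ≃ₐ[K] L))) (j ∈ (Finset.univ : Finset (L ≃ₐ[K] L))),
      i ≠ j → i • w.asIdeal ≠ j • w.asIdeal := by
    intro i _ j _ hij heq
    apply hij
    have hmem : j⁻¹ * i ∈ MulAction.stabilizer (L ≃ₐ[K] L) w.asIdeal := by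
      rw [MulAction.mem_stabilizer_iff, mul_smul, heq, inv_smul_smul]
    rw [hstab, Subgroup.mem_bot] at hmem
    exact (inv_mul_eq_one.mp hmem).symm
  obtain ⟨θ, hθ⟩ := IsDedekindDomain.exists_forall_sub_mem_ideal
    (s := (Finset.univ : Finset (L ≃ₐ[K] L))) (fun τ : L ≃ₐ[K] L => τ • w.asIdeal)
    (fun _ => N) hprime hcop (fun τ => if (τ : L ≃ₐ[K] L) = 1 then (1 : 𝓞 L) else 0)
  -- the two properties of `θ`
  have hθ1 : θ - 1 ∈ w.asIdeal ^ N := by
    have h1 := hθ 1 (Finset.mem_univ _)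
    simpa using h1
  have hθτ : ∀ τ : L ≃ₐ[K] L, τ ≠ 1 → τ • θ ∈ w.asIdeal ^ N := by
    intro τ hτ
    have h1 := hθ τ⁻¹ (Finset.mem_univ _)
    have hτ' : τ⁻¹ ≠ 1 := by simpa using hτ
    simp only [hτ', if_false, sub_zero] at h1
    have h2 := Ideal.smul_mem_pointwise_smul τ θ _ h1
    rwa [smul_pow', smul_inv_smul] at h2
  -- the trace
  have hinv : ∀ σ : L ≃ₐ[K] L, σ • (∑ τ : L ≃ₐ[K] L, τ • (B * θ)) = ∑ τ : L ≃ₐ[K] L, τ • (B * θ) := by
    intro σ
    rw [Finset.smul_sum]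
    exact Fintype.sum_bijective (fun τ => σ * τ) (Group.mulLeft_bijective σ) _ _
      (fun τ => (mul_smul σ τ _).symm)
  obtain ⟨c, hc⟩ := Algebra.IsInvariant.isInvariant (A := 𝓞 K) (G := L ≃ₐ[K] L)
    (∑ τ : L ≃ₐ[K] L, τ • (B * θ)) hinv
  refine ⟨c, ?_⟩
  rw [hc, ← Finset.add_sum_erase _ _ (Finset.mem_univ (1 : L ≃ₐ[K] L)), one_smul]
  have hsplit : B * θ + ∑ τ ∈ (Finset.univ : Finset (L ≃ₐ[K] L)).erase 1, τ • (B * θ) - B =
      B * (θ - 1) + ∑ τ ∈ (Finset.univ : Finset (L ≃ₐ[K] L)).erase 1, τ • (B * θ) := by ring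
  rw [hsplit]
  refine Ideal.add_mem _ (Ideal.mul_mem_left _ _ hθ1) (Ideal.sum_mem _ fun τ hτ => ?_)
  rw [smul_mul']
  exact Ideal.mul_mem_left _ _ (hθτ τ (Finset.ne_of_mem_erase hτ))

end Fermat.Agent.S14.Thaine.Kummer
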