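import Fermat.Agent.S14.Thaine.Defs

/-!
# Route T, block `Kummer` (sub-architect helper8): ramification in a `TwistedExt`

All inertia groups of `L/K` are trivial (from `unramified` away from `p`, from `split` above `p`),
hence all ramification indices are `1` and valuations of elements of `K` do not change in `L`.
STATEMENTS FROZEN (owner of the bodies: one worker).
-/

set_option autoImplicit false

namespace Fermat.Agent.S14.Thaine.Kummer

open NumberField IsDedekindDomain
open scoped Pointwise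

variable {p : ℕ} [Fact p.Prime] {K L : Type} [Field K] [NumberField K] [Field L] [NumberField L]
  [Algebra K L]

/-- There is a prime of `L` above every prime of `K`. -/
theorem exists_liesOver (v : HeightOneSpectrum (𝓞 K)) :
    ∃ w : HeightOneSpectrum (𝓞 L), w.asIdeal.LiesOver v.asIdeal := by
  obtain ⟨⟨Q, hQ, hQv⟩⟩ := v.asIdeal.nonempty_primesOver (S := 𝓞 L)
  exact ⟨⟨Q, hQ, Ideal.ne_bot_of_liesOver_of_ne_bot v.ne_bot Q⟩, hQv⟩

theorem natCast_mem_iff (n : ℕ) (v : HeightOneSpectrum (𝓞 K)) (w : HeightOneSpectrum (𝓞 L))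
    [w.asIdeal.LiesOver v.asIdeal] :
    ((n : ℕ) : 𝓞 L) ∈ w.asIdeal ↔ ((n : ℕ) : 𝓞 K) ∈ v.asIdeal := by
  rw [Ideal.LiesOver.over (p := v.asIdeal) (P := w.asIdeal), Ideal.under_def, Ideal.mem_comap,
    map_natCast]

/-- Above `p` the decomposition groups are trivial. -/
theorem stabilizer_eq_bot [IsGalois K L] (h : TwistedExt p K L) (w : HeightOneSpectrum (𝓞 L))
    (hw : ((p : ℕ) : 𝓞 L) ∈ w.asIdeal) :
    MulAction.stabilizer (L ≃ₐ[K] L) w.asIdeal = ⊥ := by
  rw [Subgroup.eq_bot_iff_forall]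
  intro τ hτ
  rw [MulAction.mem_stabilizer_iff] at hτ
  refine h.split w.asIdeal w.isPrime hw τ ?_
  intro x hx
  refine ⟨τ • x, ?_, rfl⟩
  rw [← hτ]
  exact Ideal.smul_mem_pointwise_smul τ x w.asIdeal hx

/-- All inertia groups are trivial. -/
theorem inertia_eq_bot [IsGalois K L] (h : TwistedExt p K L) (w : HeightOneSpectrum (𝓞 L)) :
    w.asIdeal.inertia (L ≃ₐ[K] L) = ⊥ := by
  by_cases hw : ((p : ℕ) : 𝓞 L) ∈ w.asIdeal
  · exact le_bot_iff.mp ((stabilizer_eq_bot h w hw) ▸ Ideal.inertia_le_stabilizer w.asIdeal)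
  · rw [Subgroup.eq_bot_iff_forall]
    intro τ hτ
    refine h.unramified w.asIdeal w.isPrime hw τ ?_
    intro x
    exact ⟨τ • x - x, hτ x, rfl⟩

/-- Valuations of elements of `K` do not change in `L` (all ramification indices are `1`). -/
theorem valuation_eq [IsGalois K L] (h : TwistedExt p K L) (v : HeightOneSpectrum (𝓞 K))
    (w : HeightOneSpectrum (𝓞 L)) [w.asIdeal.LiesOver v.asIdeal] (x : K) :
    w.valuation L (algebraMap K L x) = v.valuation K x := by
  have h1 : v.asIdeal.ramificationIdx' w.asIdeal = w.asIdeal.ramificationIdx (𝓞 K) :=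
    Ideal.ramificationIdx'_eq_ramificationIdx v.asIdeal w.asIdeal v.ne_bot
  have h2 : v.asIdeal.ramificationIdxIn (𝓞 L) = w.asIdeal.ramificationIdx (𝓞 K) :=
    Ideal.ramificationIdxIn_eq_ramificationIdx v.asIdeal w.asIdeal (L ≃ₐ[K] L)
  have h3 : Nat.card (w.asIdeal.inertia (L ≃ₐ[K] L)) = v.asIdeal.ramificationIdxIn (𝓞 L) :=
    Ideal.card_inertia_eq_ramificationIdxIn v.asIdeal w.asIdeal
  have h4 : Nat.card (w.asIdeal.inertia (L ≃ₐ[K] L)) = 1 := by
    rw [inertia_eq_bot h w]
    exact Subgroup.card_bot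
  have h5 : v.asIdeal.ramificationIdx' w.asIdeal = 1 := by
    rw [h1, ← h2, ← h3, h4]
  rw [← HeightOneSpectrum.valuation_liesOver L v w x, h5, pow_one]

end Fermat.Agent.S14.Thaine.Kummer
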