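import Fermat.Agent.S14.Thaine.Defs
import Fermat.Agent.S14.Thaine.Kummer.Ram
import Fermat.Agent.S14.Thaine.Kummer.Approx

/-!
# Route T, block `Kummer` (sub-architect helper8): (H1) and (H3)

For `B ^ p = b ∈ K` in a `TwistedExt`: every valuation of `b` is divisible by `p`, and at the primes
above `p` the element `b` is a `p`-th power modulo `v³` (up to `p`-th powers of `K`).
STATEMENTS FROZEN (owner of the bodies: one worker).
-/

set_option autoImplicit false

namespace Fermat.Agent.S14.Thaine.Kummer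

open NumberField IsDedekindDomain
open scoped Pointwise

variable {p : ℕ} [Fact p.Prime] {K L : Type} [Field K] [NumberField K] [Field L] [NumberField L]
  [Algebra K L]

namespace LocalAux

/-- Integral valuations of elements of `𝓞 K` do not change in `𝓞 L`. -/
theorem intValuation_eq [IsGalois K L] (h : TwistedExt p K L) (v : HeightOneSpectrum (𝓞 K))
    (w : HeightOneSpectrum (𝓞 L)) [w.asIdeal.LiesOver v.asIdeal] (y : 𝓞 K) :
    w.intValuation (algebraMap (𝓞 K) (𝓞 L) y) = v.intValuation y := by
  rw [← HeightOneSpectrum.valuation_of_algebraMap (K := L) w,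
    ← HeightOneSpectrum.valuation_of_algebraMap (K := K) v y, ← valuation_eq h v w]
  congr 1

/-- Ultrametric estimate for `B ^ n - C ^ n` when `C` is close to `B`. -/
theorem intValuation_pow_sub_pow_le {R : Type*} [CommRing R] [IsDedekindDomain R]
    (w : HeightOneSpectrum R) (B C : R) (ε : WithZero (Multiplicative ℤ)) (hε : ε < 1)
    (hBC : w.intValuation (C - B) ≤ w.intValuation B * ε) (hB0 : B ≠ 0) (n : ℕ) (hn : 0 < n) :
    w.intValuation C = w.intValuation B ∧
      w.intValuation (B ^ n - C ^ n) ≤ w.intValuation B ^ n * ε := by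
  have ha0 : w.intValuation B ≠ 0 := w.intValuation_ne_zero B hB0
  have hapos : 0 < w.intValuation B := zero_lt_iff.mpr ha0
  have hlt : w.intValuation (C - B) < w.intValuation B := by
    refine lt_of_le_of_lt hBC ?_
    calc w.intValuation B * ε < w.intValuation B * 1 := by
          exact mul_lt_mul_of_pos_left hε hapos
      _ = w.intValuation B := mul_one _
  have hC : w.intValuation C = w.intValuation B := by
    have h1 : C = B + (C - B) := by ring
    rw [h1]
    exact Valuation.map_add_eq_of_lt_left _ hlt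
  refine ⟨hC, ?_⟩
  have hgeom := geom_sum₂_mul B C n
  rw [← hgeom, map_mul]
  have hsum : w.intValuation (∑ i ∈ Finset.range n, B ^ i * C ^ (n - 1 - i)) ≤
      w.intValuation B ^ (n - 1) := by
    refine Valuation.map_sum_le _ fun i hi => ?_
    have hi' : i < n := Finset.mem_range.mp hi
    rw [map_mul, map_pow, map_pow, hC, ← pow_add]
    have : i + (n - 1 - i) = n - 1 := by omega
    rw [this]
  have hsub : w.intValuation (B - C) ≤ w.intValuation B * ε := by
    rw [Valuation.map_sub_swap]; exact hBC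
  calc w.intValuation (∑ i ∈ Finset.range n, B ^ i * C ^ (n - 1 - i)) * w.intValuation (B - C)
      ≤ w.intValuation B ^ (n - 1) * (w.intValuation B * ε) := mul_le_mul' hsum hsub
    _ = w.intValuation B ^ n * ε := by
        rw [← mul_assoc, ← pow_succ]
        have : n - 1 + 1 = n := by omega
        rw [this]

end LocalAux

/-- (H1) -/
theorem val_eq_exp_mul [IsGalois K L] (h : TwistedExt p K L) (B : L) (hB0 : B ≠ 0) (b : K)
    (hb : algebraMap K L b = B ^ p) (v : HeightOneSpectrum (𝓞 K)) :
    ∃ k : ℤ, v.valuation K b = WithZero.exp ((p : ℤ) * k) := by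
  obtain ⟨w, hw⟩ := exists_liesOver (L := L) v
  have := hw
  have h1 : v.valuation K b = (w.valuation L B) ^ p := by
    rw [← valuation_eq h v w b, hb, map_pow]
  have hne : w.valuation L B ≠ 0 := (Valuation.ne_zero_iff _).mpr hB0
  refine ⟨WithZero.log (w.valuation L B), ?_⟩
  rw [h1, ← nsmul_eq_mul, WithZero.exp_nsmul, WithZero.exp_log hne]

/-- (H3) -/
theorem exists_local_pow [IsGalois K L] (h : TwistedExt p K L) (B : 𝓞 L) (hB0 : B ≠ 0) (b : 𝓞 K)
    (hb : algebraMap (𝓞 K) (𝓞 L) b = B ^ p) (v : HeightOneSpectrum (𝓞 K))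
    (hv : ((p : ℕ) : 𝓞 K) ∈ v.asIdeal) :
    ∃ x : K, v.valuation K ((b : K) * x ^ p - 1) ≤ WithZero.exp (-3 : ℤ) := by
  obtain ⟨w, hw⟩ := exists_liesOver (L := L) v
  have := hw
  have hpw : ((p : ℕ) : 𝓞 L) ∈ w.asIdeal := (natCast_mem_iff p v w).mpr hv
  have hstab := stabilizer_eq_bot h w hpw
  have hp : 0 < p := (Fact.out : p.Prime).pos
  have ha0 : w.intValuation B ≠ 0 := w.intValuation_ne_zero B hB0
  have hapos : 0 < w.intValuation B := zero_lt_iff.mpr ha0
  -- the approximation
  set k : ℤ := WithZero.log (w.intValuation B) with hk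
  have hak : WithZero.exp k = w.intValuation B := WithZero.exp_log ha0
  obtain ⟨c, hc⟩ := exists_approx (K := K) w hstab B (3 - k).toNat
  set C : 𝓞 L := algebraMap (𝓞 K) (𝓞 L) c with hC
  have hBC : w.intValuation (C - B) ≤ w.intValuation B * WithZero.exp (-3 : ℤ) := by
    rw [← w.intValuation_le_pow_iff_mem] at hc
    refine hc.trans ?_
    rw [← hak, ← WithZero.exp_add, WithZero.exp_le_exp]
    have := Int.self_le_toNat (3 - k)
    omega
  have hε : WithZero.exp (-3 : ℤ) < (1 : WithZero (Multiplicative ℤ)) := by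
    rw [← WithZero.exp_zero, WithZero.exp_lt_exp]; norm_num
  obtain ⟨hCval, hpow⟩ :=
    LocalAux.intValuation_pow_sub_pow_le w B C (WithZero.exp (-3 : ℤ)) hε hBC hB0 p hp
  -- transfer to `K`
  have hvc : v.intValuation c = w.intValuation B := by
    rw [← LocalAux.intValuation_eq h v w c, ← hC, hCval]
  have hc0 : c ≠ 0 := by
    rintro rfl
    rw [map_zero] at hvc
    exact ha0 hvc.symm
  have hcK : (c : K) ≠ 0 := by
    rw [Ne, RingOfIntegers.coe_eq_zero_iff]; exact hc0
  have hvd : v.intValuation (b - c ^ p) ≤ w.intValuation B ^ p * WithZero.exp (-3 : ℤ) := by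
    rw [← LocalAux.intValuation_eq h v w (b - c ^ p), map_sub, map_pow, hb, ← hC]
    exact hpow
  refine ⟨(c : K)⁻¹, ?_⟩
  have heq : (b : K) * ((c : K)⁻¹) ^ p - 1 =
      algebraMap (𝓞 K) K (b - c ^ p) / algebraMap (𝓞 K) K (c ^ p) := by
    rw [map_sub, map_pow]
    show (b : K) * ((c : K)⁻¹) ^ p - 1 = ((b : K) - (c : K) ^ p) / (c : K) ^ p
    rw [eq_div_iff (pow_ne_zero p hcK), inv_pow, sub_mul, mul_assoc,
      inv_mul_cancel₀ (pow_ne_zero p hcK), mul_one, one_mul]
  rw [heq, map_div₀, HeightOneSpectrum.valuation_of_algebraMap,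
    HeightOneSpectrum.valuation_of_algebraMap, map_pow, hvc]
  rw [div_le_iff₀ (pow_pos hapos p), mul_comm]
  exact hvd

end Fermat.Agent.S14.Thaine.Kummer
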