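import Fermat.Agent.S14.Thaine.Defs
import Fermat.Agent.S14.Thaine.Kummer.Gen

/-!
# Route T, block `Kummer` (sub-architect helper8): (H2), the twist relation

From `TwistedExt.twist`: if `B ^ p = b ∈ K` then `σ b = b ^ (a²) * γ ^ p` for `σ = σ_a`.
STATEMENT FROZEN (owner of the body: one worker).
-/

set_option autoImplicit false

namespace Fermat.Agent.S14.Thaine.Kummer

open NumberField

namespace TwistAux

/-- Iterating `τ B = z ^ j * B` (with `z` in the base field). -/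
theorem pow_apply {K L : Type} [Field K] [Field L] [Algebra K L] (τ : L ≃ₐ[K] L) (ζ : K)
    (B : L) (j : ℕ) (hτ : τ B = algebraMap K L ζ ^ j * B) (n : ℕ) :
    (τ ^ n) B = algebraMap K L ζ ^ (j * n) * B := by
  induction n with
  | zero => simp
  | succ n ih =>
    rw [pow_succ, AlgEquiv.mul_apply, hτ, map_mul, map_pow, AlgEquiv.commutes, ih, ← mul_assoc,
      ← pow_add]
    congr 2
    ring

/-- `sqExp` is `a ^ 2 % p` for `a = (chi p K σ).val`. -/
theorem sqExp_eq {p : ℕ} [Fact p.Prime] (K : Type) [Field K] [NumberField K]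
    [IsCyclotomicExtension {p} ℚ K] (σ : K ≃ₐ[ℚ] K) :
    sqExp p K σ = (chi p K σ).val ^ 2 % p := by
  unfold sqExp
  conv_lhs => rw [← ZMod.natCast_zmod_val (chi p K σ)]
  rw [← Nat.cast_pow, ZMod.val_natCast]

/-- The key invariance: `σL B / B ^ (a ^ 2)` lies in `K`. -/
theorem exists_base {p : ℕ} [Fact p.Prime] (K L : Type) [Field K] [NumberField K] [Field L]
    [NumberField L] [Algebra K L] [IsGalois K L]
    (ζ : K) (hζ : IsPrimitiveRoot ζ p) (B : L) (hB0 : B ≠ 0) (b : K)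
    (hb : algebraMap K L b = B ^ p) (σL : L ≃ₐ[ℚ] L) (a : ℕ)
    (hσz : σL (algebraMap K L ζ) = algebraMap K L ζ ^ a)
    (htw : ∀ (τ : L ≃ₐ[K] L) (x : L), σL ((τ ^ a) (σL.symm x)) = τ x) :
    ∃ γ₀ : K, σL B = algebraMap K L γ₀ * B ^ (a ^ 2) := by
  have hz0 : algebraMap K L ζ ≠ 0 := by
    have hp : p ≠ 0 := (Fact.out : p.Prime).ne_zero
    have hζ0 : ζ ≠ 0 := hζ.ne_zero hp
    exact (map_ne_zero (algebraMap K L)).mpr hζ0
  have hfix : ∀ τ : L ≃ₐ[K] L, τ (σL B / B ^ (a ^ 2)) = σL B / B ^ (a ^ 2) := by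
    intro τ
    obtain ⟨j, hj⟩ := exists_pow_smul ζ hζ B hB0 b hb τ
    have h1 : τ (σL B) = algebraMap K L ζ ^ (j * a ^ 2) * σL B := by
      rw [← htw τ (σL B), AlgEquiv.symm_apply_apply, pow_apply τ ζ B j hj a, map_mul, map_pow,
        hσz, ← pow_mul]
      congr 2
      ring
    have h2 : τ (B ^ (a ^ 2)) = algebraMap K L ζ ^ (j * a ^ 2) * B ^ (a ^ 2) := by
      rw [map_pow, hj, mul_pow, ← pow_mul]
    rw [map_div₀, h1, h2]
    have hzp : algebraMap K L ζ ^ (j * a ^ 2) ≠ 0 := pow_ne_zero _ hz0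
    rw [mul_div_mul_left _ _ hzp]
  obtain ⟨γ₀, hγ₀⟩ := (IsGalois.mem_range_algebraMap_iff_fixed (F := K) (E := L) _).mpr hfix
  refine ⟨γ₀, ?_⟩
  rw [hγ₀, div_mul_cancel₀]
  exact pow_ne_zero _ hB0

end TwistAux

theorem twist_rel {p : ℕ} [Fact p.Prime] (K L : Type) [Field K] [NumberField K] [Field L]
    [NumberField L] [Algebra K L] [IsCyclotomicExtension {p} ℚ K] [IsGalois ℚ L] [IsGalois K L]
    (h : TwistedExt p K L) (B : L) (hB0 : B ≠ 0) (b : K) (hb : algebraMap K L b = B ^ p)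
    (σ : K ≃ₐ[ℚ] K) :
    ∃ γ : K, σ b = b ^ sqExp p K σ * γ ^ p := by
  have hζ : IsPrimitiveRoot (IsCyclotomicExtension.zeta p ℚ K) p :=
    IsCyclotomicExtension.zeta_spec p ℚ K
  have hσz : (AlgEquiv.liftNormal σ L) (algebraMap K L (IsCyclotomicExtension.zeta p ℚ K)) =
      algebraMap K L (IsCyclotomicExtension.zeta p ℚ K) ^ (chi p K σ).val := by
    rw [AlgEquiv.liftNormal_commutes,
      IsCyclotomicExtension.Rat.galEquivZMod_apply_of_pow_eq p K σ hζ.pow_eq_one, map_pow]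
    rfl
  have htw := h.twist _ hζ (AlgEquiv.liftNormal σ L) (chi p K σ).val hσz
  obtain ⟨γ₀, hγ₀⟩ := TwistAux.exists_base K L _ hζ B hB0 b hb (AlgEquiv.liftNormal σ L)
    (chi p K σ).val hσz htw
  refine ⟨b ^ ((chi p K σ).val ^ 2 / p) * γ₀, ?_⟩
  apply (algebraMap K L).injective
  rw [← AlgEquiv.liftNormal_commutes σ L b, hb, map_pow, hγ₀, TwistAux.sqExp_eq K σ]
  simp only [map_mul, map_pow, hb]
  have hdiv : (chi p K σ).val ^ 2 = (chi p K σ).val ^ 2 % p + p * ((chi p K σ).val ^ 2 / p) :=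
    (Nat.mod_add_div _ _).symm
  generalize (chi p K σ).val ^ 2 % p = r at hdiv
  generalize (chi p K σ).val ^ 2 / p = q at hdiv
  rw [hdiv]
  ring

end Fermat.Agent.S14.Thaine.Kummer
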